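import Fermat.Agent.S26.H207.SmoothLocal

/-!
# Row S26, leaf UFD, step U2: the completion of a smooth rational point (helper207)

* `completionEquiv`: a compatible family of ring isomorphisms `A / I ^ n ≃ B / 𝔫 ^ n` induces a
  ring isomorphism of adic completions.
* `exists_adicCompletion_equiv`: the completion of a noetherian local `K`-algebra `R`, formally
  smooth over `K` with residue field `K`, is a power series ring `K⟦X_1, …, X_d⟧`.
-/

set_option autoImplicit false

universe u

open IsLocalRing MvPolynomial

namespace Fermat.Agent.S26.H207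

section General

variable {A : Type*} [CommRing A] (I : Ideal A)

/-- The projections of the adic completion are compatible with the transition maps. -/
theorem factorPow_evalₐ {m n : ℕ} (hle : m ≤ n) (x : AdicCompletion I A) :
    Ideal.Quotient.factorPow I hle (AdicCompletion.evalₐ I n x) = AdicCompletion.evalₐ I m x := by
  obtain ⟨c, rfl⟩ := AdicCompletion.mk_surjective I A x
  rw [AdicCompletion.evalₐ_mk, AdicCompletion.evalₐ_mk]
  exact AdicCompletion.Ideal.mk_eq_mk I hle c

variable {B : Type*} [CommRing B] (J : Ideal B)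

theorem completionHom_compat (e : ∀ n, A ⧸ I ^ n →+* B ⧸ J ^ n)
    (he : ∀ {m n : ℕ} (hle : m ≤ n) (z : A ⧸ I ^ n),
      Ideal.Quotient.factorPow J hle (e n z) = e m (Ideal.Quotient.factorPow I hle z))
    {m n : ℕ} (hle : m ≤ n) :
    (Ideal.Quotient.factorPow J hle).comp
        ((e n).comp (AdicCompletion.evalₐ I n : AdicCompletion I A →+* A ⧸ I ^ n)) =
      (e m).comp (AdicCompletion.evalₐ I m : AdicCompletion I A →+* A ⧸ I ^ m) := by
  refine RingHom.ext fun x => ?_
  simp only [RingHom.comp_apply]
  rw [he hle]
  congr 1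
  exact factorPow_evalₐ I hle x

/-- The map of adic completions induced by a compatible family of maps of the quotients. -/
noncomputable def completionHom (e : ∀ n, A ⧸ I ^ n →+* B ⧸ J ^ n)
    (he : ∀ {m n : ℕ} (hle : m ≤ n) (z : A ⧸ I ^ n),
      Ideal.Quotient.factorPow J hle (e n z) = e m (Ideal.Quotient.factorPow I hle z)) :
    AdicCompletion I A →+* AdicCompletion J B :=
  AdicCompletion.liftRingHom J
    (fun n => (e n).comp (AdicCompletion.evalₐ I n : AdicCompletion I A →+* A ⧸ I ^ n))
    (fun hle => completionHom_compat I J e he hle)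

theorem evalₐ_completionHom (e : ∀ n, A ⧸ I ^ n →+* B ⧸ J ^ n)
    (he : ∀ {m n : ℕ} (hle : m ≤ n) (z : A ⧸ I ^ n),
      Ideal.Quotient.factorPow J hle (e n z) = e m (Ideal.Quotient.factorPow I hle z))
    (n : ℕ) (x : AdicCompletion I A) :
    AdicCompletion.evalₐ J n (completionHom I J e he x) = e n (AdicCompletion.evalₐ I n x) :=
  AdicCompletion.evalₐ_liftRingHom J
    (fun n => (e n).comp (AdicCompletion.evalₐ I n : AdicCompletion I A →+* A ⧸ I ^ n))
    (fun hle => completionHom_compat I J e he hle) n x

theorem completionHom_comp_eq_id (e : ∀ n, A ⧸ I ^ n →+* B ⧸ J ^ n)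
    (he : ∀ {m n : ℕ} (hle : m ≤ n) (z : A ⧸ I ^ n),
      Ideal.Quotient.factorPow J hle (e n z) = e m (Ideal.Quotient.factorPow I hle z))
    (e' : ∀ n, B ⧸ J ^ n →+* A ⧸ I ^ n)
    (he' : ∀ {m n : ℕ} (hle : m ≤ n) (z : B ⧸ J ^ n),
      Ideal.Quotient.factorPow I hle (e' n z) = e' m (Ideal.Quotient.factorPow J hle z))
    (h : ∀ n z, e' n (e n z) = z) :
    (completionHom J I e' he').comp (completionHom I J e he) = RingHom.id _ := by
  refine RingHom.ext fun x => ?_
  refine AdicCompletion.ext_evalₐ fun n => ?_
  rw [RingHom.comp_apply, RingHom.id_apply, evalₐ_completionHom, evalₐ_completionHom]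
  exact h n _

/-- A compatible family of ring isomorphisms `A / I ^ n ≃ B / J ^ n` induces a ring isomorphism
of adic completions. -/
noncomputable def completionEquiv (e : ∀ n, A ⧸ I ^ n ≃+* B ⧸ J ^ n)
    (he : ∀ {m n : ℕ} (hle : m ≤ n) (z : A ⧸ I ^ n),
      Ideal.Quotient.factorPow J hle (e n z) = e m (Ideal.Quotient.factorPow I hle z)) :
    AdicCompletion I A ≃+* AdicCompletion J B :=
  have hf : ∀ {m n : ℕ} (hle : m ≤ n) (z : A ⧸ I ^ n),
      Ideal.Quotient.factorPow J hle ((e n).toRingHom z) =
        (e m).toRingHom (Ideal.Quotient.factorPow I hle z) := by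
    intro m n hle z
    simpa using he hle z
  have hg : ∀ {m n : ℕ} (hle : m ≤ n) (z : B ⧸ J ^ n),
      Ideal.Quotient.factorPow I hle ((e n).symm.toRingHom z) =
        (e m).symm.toRingHom (Ideal.Quotient.factorPow J hle z) := by
    intro m n hle z
    apply (e m).injective
    have := he hle ((e n).symm z)
    simp only [RingEquiv.apply_symm_apply] at this
    simp [← this]
  RingEquiv.ofRingHom
    (completionHom I J (fun n => (e n).toRingHom) hf)
    (completionHom J I (fun n => (e n).symm.toRingHom) hg)
    (completionHom_comp_eq_id J I _ hg _ hf (fun n z => by simp))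
    (completionHom_comp_eq_id I J _ hf _ hg (fun n z => by simp))

end General

section Smooth

variable {K : Type u} [Field K] {R : Type u} [CommRing R] [Algebra K R] [IsLocalRing R]
  {d : ℕ} (x : Fin d → R)

/-- The isomorphism `K[X] / J ^ n ≃ R / 𝔫 ^ n` induced by a bijective evaluation map. -/
noncomputable def levelEquiv (n : ℕ) (hs : Function.Surjective (evalMod (K := K) x n))
    (hk : RingHom.ker (evalMod (K := K) x n) = idealOfVars (Fin d) K ^ n) :
    (MvPolynomial (Fin d) K ⧸ idealOfVars (Fin d) K ^ n) ≃+* R ⧸ maximalIdeal R ^ n :=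
  (Ideal.quotEquivOfEq hk.symm).trans
    (RingHom.quotientKerEquivOfSurjective (f := (evalMod (K := K) x n).toRingHom) hs)

theorem levelEquiv_mk (n : ℕ) (hs : Function.Surjective (evalMod (K := K) x n))
    (hk : RingHom.ker (evalMod (K := K) x n) = idealOfVars (Fin d) K ^ n)
    (p : MvPolynomial (Fin d) K) :
    levelEquiv x n hs hk (Ideal.Quotient.mk _ p) =
      Ideal.Quotient.mk (maximalIdeal R ^ n) (aeval x p) := rfl

end Smooth

section Final

/-- **U2.** The completion of a noetherian local `K`-algebra, formally smooth over `K` and with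
residue field `K`, is a ring of formal power series over `K`. -/
theorem exists_adicCompletion_equiv (K : Type u) [Field K] (R : Type u) [CommRing R]
    [Algebra K R] [IsLocalRing R] [IsNoetherianRing R] [Algebra.FormallySmooth K R]
    (hres : Function.Surjective (algebraMap K (ResidueField R))) :
    ∃ d : ℕ, Nonempty (AdicCompletion (maximalIdeal R) R ≃+* MvPowerSeries (Fin d) K) := by
  obtain ⟨d, x, -, h⟩ := exists_bijective_quotient_pow K R hres
  refine ⟨d, ⟨?_⟩⟩
  have e := completionEquiv (idealOfVars (Fin d) K) (maximalIdeal R)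
    (fun n => levelEquiv x n (h n).1 (h n).2) (by
      intro m n hle z
      obtain ⟨p, rfl⟩ := Ideal.Quotient.mk_surjective z
      rfl)
  exact e.symm.trans (MvPowerSeries.toAdicCompletionAlgEquiv (Fin d) K).symm.toRingEquiv

end Final

end Fermat.Agent.S26.H207
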