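import Mathlib

/-!
# Row S26, leaf UFD, step U4: descent of unique factorisation (helper207)

If `R → S` is faithfully flat, `S` is a local unique factorisation domain and `R` is a
noetherian domain, then `R` is a unique factorisation domain.

Proof: for `a b : R` the ideal `aR ∩ bR` extends to `aS ∩ bS` (flatness, equational criterion),
which is principal (`S` has lcm's); a principal extension of a finitely generated ideal along a
faithfully flat map to a local ring comes from a principal ideal.  Hence `R` has lcm's, so it is a
GCD domain; being noetherian it is a UFD.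
-/

set_option autoImplicit false

namespace Fermat.Agent.S26.H207

open IsLocalRing

section Descent

variable {R S : Type*} [CommRing R] [CommRing S] [Algebra R S]

/-- Flat base change of the intersection of two principal ideals. -/
theorem map_span_inf_span_of_flat [Module.Flat R S] (a b : R) :
    (Ideal.span {a} ⊓ Ideal.span {b}).map (algebraMap R S) =
      Ideal.span {algebraMap R S a} ⊓ Ideal.span {algebraMap R S b} := by
  apply le_antisymm
  · refine le_inf ?_ ?_
    · refine (Ideal.map_mono inf_le_left).trans ?_
      rw [Ideal.map_span, Set.image_singleton]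
    · refine (Ideal.map_mono inf_le_right).trans ?_
      rw [Ideal.map_span, Set.image_singleton]
  · intro z hz
    obtain ⟨hz1, hz2⟩ := hz
    obtain ⟨s, rfl⟩ := Ideal.mem_span_singleton'.mp hz1
    obtain ⟨s', hs'⟩ := Ideal.mem_span_singleton'.mp hz2
    obtain ⟨k, α, y, hx, hα⟩ := Module.Flat.isTrivialRelation_of_sum_smul_eq_zero
      (R := R) (M := S) (f := ![a, -b]) (x := ![s, s']) (by
        simp only [Fin.sum_univ_two, Matrix.cons_val_zero, Matrix.cons_val_one,
          Algebra.smul_def, map_neg]
        rw [mul_comm _ s, mul_comm _ s', ← hs']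
        ring)
    have hs : s = ∑ j, α 0 j • y j := by simpa using hx 0
    have hmem : ∀ j, a * α 0 j ∈ Ideal.span {a} ⊓ Ideal.span {b} := by
      intro j
      refine ⟨Ideal.mul_mem_right _ _ (Ideal.mem_span_singleton_self a), ?_⟩
      have h := hα j
      simp only [Fin.sum_univ_two, Matrix.cons_val_zero, Matrix.cons_val_one] at h
      have h' : a * α 0 j = b * α 1 j := by linear_combination h
      rw [h']
      exact Ideal.mul_mem_right _ _ (Ideal.mem_span_singleton_self b)
    rw [hs, Finset.sum_mul]
    refine Ideal.sum_mem _ fun j _ => ?_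
    have : α 0 j • y j * algebraMap R S a = y j * algebraMap R S (a * α 0 j) := by
      rw [Algebra.smul_def, map_mul]; ring
    rw [this]
    exact Ideal.mul_mem_left _ _ (Ideal.mem_map_of_mem _ (hmem j))

/-- A finitely generated ideal whose extension along a faithfully flat map to a local ring is
principal is principal. -/
theorem exists_span_singleton_eq_of_map_eq [Module.FaithfullyFlat R S] [IsLocalRing S]
    (I : Ideal R) (hI : I.FG) (c : S) (hc : I.map (algebraMap R S) = Ideal.span {c}) :
    ∃ g : R, I = Ideal.span {g} := by
  by_cases hc0 : c = 0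
  · refine ⟨0, ?_⟩
    have h0 : I.map (algebraMap R S) = ⊥ := by rw [hc, hc0]; simp
    have := Ideal.comap_map_eq_self_of_faithfullyFlat (B := S) I
    rw [h0] at this
    rw [← this]
    have hinj : Function.Injective (algebraMap R S) := FaithfulSMul.algebraMap_injective R S
    rw [Ideal.comap_bot_of_injective _ hinj]
    simp
  obtain ⟨T, hT⟩ := hI
  -- `c` is a combination of the images of the generators, each of which is a multiple of `c`
  have hcmem : c ∈ Ideal.span ((algebraMap R S) '' (T : Set R)) := by
    rw [← Ideal.map_span, hT, hc]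
    exact Ideal.mem_span_singleton_self c
  have hmult : ∀ g ∈ T, ∃ t : S, algebraMap R S g = t * c := by
    intro g hg
    have : algebraMap R S g ∈ Ideal.span {c} := by
      rw [← hc]
      exact Ideal.mem_map_of_mem _ (hT ▸ Ideal.subset_span hg)
    exact Ideal.mem_span_singleton'.mp this |>.imp fun t ht => ht.symm
  -- some generator is a unit multiple of `c`
  have key : ∃ g ∈ T, ∃ t : S, IsUnit t ∧ algebraMap R S g = t * c := by
    by_contra hcon
    push Not at hcon
    -- then the span of the images is contained in `𝔪 c`
    have hle : Ideal.span ((algebraMap R S) '' (T : Set R)) ≤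
        maximalIdeal S * Ideal.span {c} := by
      rw [Ideal.span_le]
      rintro _ ⟨g, hg, rfl⟩
      obtain ⟨t, ht⟩ := hmult g hg
      have htn : ¬ IsUnit t := fun hu => hcon g hg t hu ht
      rw [SetLike.mem_coe, ht]
      exact Ideal.mul_mem_mul ((mem_maximalIdeal t).mpr htn) (Ideal.mem_span_singleton_self c)
    have hc' := hle hcmem
    rw [Ideal.mem_mul_span_singleton] at hc'
    obtain ⟨z, hz, hzc⟩ := hc'
    have h1 : (z - 1) * c = 0 := by rw [sub_mul, hzc, one_mul, sub_self]
    have hu : IsUnit (z - 1) := by
      have : IsUnit (1 - z) := by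
        by_contra hnu
        have h1z : (1 - z) ∈ maximalIdeal S := (mem_maximalIdeal _).mpr hnu
        have h1m : (1 - z) + z ∈ maximalIdeal S := Ideal.add_mem _ h1z hz
        rw [sub_add_cancel] at h1m
        exact (Ideal.ne_top_iff_one _).mp (maximalIdeal.isMaximal S).ne_top h1m
      have h2 : z - 1 = -(1 - z) := by ring
      rw [h2]
      exact this.neg
    exact hc0 (by simpa using (hu.mul_right_eq_zero.mp h1))
  obtain ⟨g, hg, t, htu, hgt⟩ := key
  refine ⟨g, ?_⟩
  have hgI : g ∈ I := hT ▸ Ideal.subset_span hg
  have hmap : (Ideal.span {g}).map (algebraMap R S) = I.map (algebraMap R S) := by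
    rw [hc, Ideal.map_span, Set.image_singleton, hgt]
    exact Ideal.span_singleton_mul_left_unit htu c
  have h1 := Ideal.comap_map_eq_self_of_faithfullyFlat (B := S) I
  have h2 := Ideal.comap_map_eq_self_of_faithfullyFlat (B := S) (Ideal.span {g})
  rw [← h1, ← hmap, h2]

/-- **U4.** Descent of unique factorisation along a faithfully flat map to a local ring. -/
theorem ufm_of_faithfullyFlat (R S : Type*) [CommRing R] [IsDomain R] [IsNoetherianRing R]
    [CommRing S] [IsDomain S] [IsLocalRing S] [Algebra R S] [Module.FaithfullyFlat R S]
    [UniqueFactorizationMonoid S] : UniqueFactorizationMonoid R := by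
  have hlcm : ∀ a b : R, ∃ c : R, ∀ d : R, a ∣ d ∧ b ∣ d ↔ c ∣ d := by
    intro a b
    -- lcm in `S`
    obtain ⟨hS⟩ : IsGCDMonoid S := inferInstance
    have hc : (Ideal.span {a} ⊓ Ideal.span {b}).map (algebraMap R S) =
        Ideal.span {lcm (algebraMap R S a) (algebraMap R S b)} := by
      rw [map_span_inf_span_of_flat]
      ext z
      simp only [Ideal.mem_inf, Ideal.mem_span_singleton, lcm_dvd_iff]
    obtain ⟨g, hg⟩ := exists_span_singleton_eq_of_map_eq (S := S)
      (Ideal.span {a} ⊓ Ideal.span {b}) (IsNoetherian.noetherian _) _ hc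
    refine ⟨g, fun d => ?_⟩
    rw [← Ideal.mem_span_singleton, ← Ideal.mem_span_singleton, ← Ideal.mem_span_singleton (y := g),
      ← hg, Ideal.mem_inf]
  have : IsGCDMonoid R := isGCDMonoid_iff_exists_lcm.mpr ⟨inferInstance, hlcm⟩
  infer_instance

end Descent

end Fermat.Agent.S26.H207
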