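import Mathlib

/-!
# Row S26, leaf UFD, step U1 (algebra part): infinitesimal neighbourhoods (helper207)

`P = K[X_1..X_d]`, `J = (X_1..X_d)`.

* `exists_sub_aeval_mem_pow` : if `R = K + I` and `I = (x_1..x_d)` then `K[X] → R / I ^ n` is
  onto for all `n`.
* `ker_le_pow_of_sub_mem` : a `K`-algebra map `E : P → P / J ^ n` with
  `E X_i ≡ X_i` modulo `(J / J ^ n) ^ 2` has kernel contained in `J ^ n`.
-/

set_option autoImplicit false

universe u

namespace Fermat.Agent.S26.H207

open MvPolynomial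

section Surj

variable {K : Type u} [Field K] {R : Type u} [CommRing R] [Algebra K R] {d : ℕ}

/-- If `R = K + I` and `I` is generated by `x_1, …, x_d`, then every element of `I ^ n` is, modulo
`I ^ (n + 1)`, the value at `x` of a polynomial in `J ^ n`. -/
theorem exists_mem_pow_sub_aeval_mem (I : Ideal R) (x : Fin d → R)
    (hK : ∀ r : R, ∃ c : K, r - algebraMap K R c ∈ I) (hx : I = Ideal.span (Set.range x))
    (n : ℕ) : ∀ y ∈ I ^ n, ∃ q ∈ idealOfVars (Fin d) K ^ n, y - aeval x q ∈ I ^ (n + 1) := by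
  induction n with
  | zero =>
    intro y _
    obtain ⟨c, hc⟩ := hK y
    refine ⟨C c, by simp, ?_⟩
    simpa using hc
  | succ n ih =>
    intro y hy
    rw [pow_succ] at hy
    refine Submodule.mul_induction_on hy ?_ ?_
    · intro a ha b hb
      -- `b` is a combination of the `x i`
      rw [hx] at hb
      refine Submodule.span_induction (p := fun b _ => ∃ q ∈ idealOfVars (Fin d) K ^ (n + 1),
        a * b - aeval x q ∈ I ^ (n + 1 + 1)) ?_ ?_ ?_ ?_ hb
      · rintro _ ⟨i, rfl⟩
        obtain ⟨q, hq, hqa⟩ := ih a ha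
        refine ⟨q * X i, ?_, ?_⟩
        · rw [pow_succ]
          exact Ideal.mul_mem_mul hq (Ideal.subset_span ⟨i, rfl⟩)
        · have hxi : x i ∈ I := hx ▸ Ideal.subset_span ⟨i, rfl⟩
          have : a * x i - aeval x (q * X i) = (a - aeval x q) * x i := by
            rw [map_mul, aeval_X]; ring
          rw [this, pow_succ (n := n + 1)]
          exact Ideal.mul_mem_mul hqa hxi
      · exact ⟨0, Ideal.zero_mem _, by simp⟩
      · rintro b₁ b₂ _ _ ⟨q₁, hq₁, h₁⟩ ⟨q₂, hq₂, h₂⟩
        refine ⟨q₁ + q₂, Ideal.add_mem _ hq₁ hq₂, ?_⟩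
        have : a * (b₁ + b₂) - aeval x (q₁ + q₂) =
            (a * b₁ - aeval x q₁) + (a * b₂ - aeval x q₂) := by
          rw [map_add]; ring
        rw [this]
        exact Ideal.add_mem _ h₁ h₂
      · rintro r b _ ⟨q, hq, h⟩
        -- `a * (r • b) = (a * r) * b`; use the induction hypothesis for `a * r`
        obtain ⟨c, hc⟩ := hK r
        refine ⟨C c * q, Ideal.mul_mem_left _ _ hq, ?_⟩
        have hab : a * b ∈ I ^ (n + 1) := by
          rw [pow_succ]
          exact Ideal.mul_mem_mul ha (hx ▸ ‹b ∈ Ideal.span (Set.range x)›)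
        have : a * (r • b) - aeval x (C c * q) =
            (r - algebraMap K R c) * (a * b) + algebraMap K R c * (a * b - aeval x q) := by
          rw [map_mul, aeval_C, smul_eq_mul]; ring
        rw [this]
        refine Ideal.add_mem _ ?_ (Ideal.mul_mem_left _ _ h)
        rw [pow_succ' (n := n + 1)]
        exact Ideal.mul_mem_mul hc hab
    · rintro y₁ y₂ ⟨q₁, hq₁, h₁⟩ ⟨q₂, hq₂, h₂⟩
      refine ⟨q₁ + q₂, Ideal.add_mem _ hq₁ hq₂, ?_⟩
      have : y₁ + y₂ - aeval x (q₁ + q₂) = (y₁ - aeval x q₁) + (y₂ - aeval x q₂) := by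
        rw [map_add]; ring
      rw [this]
      exact Ideal.add_mem _ h₁ h₂

/-- If `R = K + I` and `I` is generated by `x_1, …, x_d`, then `K[X] → R / I ^ n` is onto. -/
theorem exists_sub_aeval_mem_pow (I : Ideal R) (x : Fin d → R)
    (hK : ∀ r : R, ∃ c : K, r - algebraMap K R c ∈ I) (hx : I = Ideal.span (Set.range x))
    (n : ℕ) (r : R) : ∃ p : MvPolynomial (Fin d) K, r - aeval x p ∈ I ^ n := by
  induction n with
  | zero => exact ⟨0, by simp⟩
  | succ n ih =>
    obtain ⟨p, hp⟩ := ih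
    obtain ⟨q, _, hq⟩ := exists_mem_pow_sub_aeval_mem I x hK hx n _ hp
    refine ⟨p + q, ?_⟩
    have : r - aeval x (p + q) = r - aeval x p - aeval x q := by rw [map_add]; ring
    rw [this]
    exact hq

end Surj

section IdealPow

variable {A : Type*} [CommRing A] (I : Ideal A)

theorem mul_mem_pow_succ {k : ℕ} {a b : A} (ha : a ∈ I ^ k) (hb : b ∈ I) :
    a * b ∈ I ^ (k + 1) := by
  rw [pow_succ]
  exact Ideal.mul_mem_mul ha hb

theorem mul_mem_pow_add {k l : ℕ} {a b : A} (ha : a ∈ I ^ k) (hb : b ∈ I ^ l) :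
    a * b ∈ I ^ (k + l) := by
  rw [pow_add]
  exact Ideal.mul_mem_mul ha hb

theorem mem_mul_of_mem_pow_succ {k : ℕ} {a : A} (ha : a ∈ I ^ (k + 1)) : a ∈ I ^ k * I := by
  rwa [pow_succ] at ha

theorem mem_of_mem_pow_two {a : A} (ha : a ∈ I ^ 2) : a ∈ I :=
  Ideal.pow_le_self (by norm_num) ha

theorem mem_pow_one_of_mem {a : A} (ha : a ∈ I) : a ∈ I ^ 1 := by
  rwa [pow_one]

theorem mem_pow_zero (a : A) : a ∈ I ^ 0 := by
  simp

theorem mem_of_mem_pow_one {a : A} (ha : a ∈ I ^ 1) : a ∈ I := by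
  rwa [pow_one] at ha

theorem mem_pow_two_of_mul {a b : A} (ha : a ∈ I) (hb : b ∈ I) : a * b ∈ I ^ 2 := by
  rw [pow_two]
  exact Ideal.mul_mem_mul ha hb

theorem mem_pow_of_le {k l : ℕ} (h : k ≤ l) {a : A} (ha : a ∈ I ^ l) : a ∈ I ^ k :=
  Ideal.pow_le_pow_right h ha

theorem mem_map_pow_of_mem_pow_map {B : Type*} [CommRing B] (f : A →+* B) {k : ℕ} {b : B}
    (hb : b ∈ (I.map f) ^ k) : b ∈ (I ^ k).map f := by
  rwa [Ideal.map_pow]

end IdealPow

section Perturb

variable {K : Type u} [Field K] {d : ℕ} (n : ℕ)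

local notation "P" => MvPolynomial (Fin d) K
local notation "J" => idealOfVars (Fin d) K
local notation "mkJ" => Ideal.Quotient.mk (idealOfVars (Fin d) K ^ n)
local notation "M" => Ideal.map (Ideal.Quotient.mk (idealOfVars (Fin d) K ^ n))
  (idealOfVars (Fin d) K)

variable (E : MvPolynomial (Fin d) K →ₐ[K] MvPolynomial (Fin d) K ⧸ idealOfVars (Fin d) K ^ n)

include E in
theorem perturb_sub_mem (hE : ∀ i, E (X i) - mkJ (X i) ∈ M ^ 2) (p : P) :
    E p - mkJ p ∈ M := by
  induction p using MvPolynomial.induction_on with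
  | C a =>
    have : E (C a) = mkJ (C a) := by
      rw [← MvPolynomial.algebraMap_eq, AlgHom.commutes]
      rfl
    rw [this, sub_self]
    exact Ideal.zero_mem _
  | add p q hp hq =>
    have : E (p + q) - mkJ (p + q) = (E p - mkJ p) + (E q - mkJ q) := by
      rw [map_add, map_add]; ring
    rw [this]
    exact Ideal.add_mem _ hp hq
  | mul_X p i hp =>
    have : E (p * X i) - mkJ (p * X i) =
        E p * (E (X i) - mkJ (X i)) + (E p - mkJ p) * mkJ (X i) := by
      rw [map_mul, map_mul]; ring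
    rw [this]
    exact Ideal.add_mem _ (Ideal.mul_mem_left _ _ (mem_of_mem_pow_two _ (hE i)))
      (Ideal.mul_mem_right _ _ hp)

include E in
theorem perturb_sub_mem_sq (hE : ∀ i, E (X i) - mkJ (X i) ∈ M ^ 2) (b : P) (hb : b ∈ J) :
    E b - mkJ b ∈ M ^ 2 := by
  induction hb using Submodule.span_induction with
  | mem b hb' =>
    obtain ⟨i, rfl⟩ := hb'
    exact hE i
  | zero => simp
  | add b₁ b₂ _ _ h₁ h₂ =>
    have : E (b₁ + b₂) - mkJ (b₁ + b₂) = (E b₁ - mkJ b₁) + (E b₂ - mkJ b₂) := by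
      rw [map_add, map_add]; ring
    rw [this]
    exact Ideal.add_mem _ h₁ h₂
  | smul r b hbJ h =>
    have : E (r • b) - mkJ (r • b) = E r * (E b - mkJ b) + (E r - mkJ r) * mkJ b := by
      rw [smul_eq_mul, map_mul, map_mul]; ring
    rw [this]
    refine Ideal.add_mem _ (Ideal.mul_mem_left _ _ h) ?_
    exact mul_mem_pow_succ _ (mem_pow_one_of_mem _ (perturb_sub_mem n E hE r))
      (Ideal.mem_map_of_mem _ hbJ)

include E in
theorem perturb_map_mem (hE : ∀ i, E (X i) - mkJ (X i) ∈ M ^ 2) (b : P) (hb : b ∈ J) :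
    E b ∈ M := by
  have h1 := perturb_sub_mem_sq n E hE b hb
  have h2 : mkJ b ∈ M := Ideal.mem_map_of_mem _ hb
  have : E b = (E b - mkJ b) + mkJ b := by ring
  rw [this]
  exact Ideal.add_mem _ (mem_of_mem_pow_two _ h1) h2

include E in
theorem perturb_map_pow_mem (hE : ∀ i, E (X i) - mkJ (X i) ∈ M ^ 2) (k : ℕ) :
    ∀ a ∈ J ^ k, E a ∈ M ^ k := by
  induction k with
  | zero => intro a _; exact mem_pow_zero _ _
  | succ k ih =>
    intro a ha
    have ha' := mem_mul_of_mem_pow_succ _ ha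
    refine Submodule.mul_induction_on ha' ?_ ?_
    · intro a ha' b hb
      rw [map_mul]
      exact mul_mem_pow_succ _ (ih a ha') (perturb_map_mem n E hE b hb)
    · intro a₁ a₂ h₁ h₂
      rw [map_add]
      exact Ideal.add_mem _ h₁ h₂

include E in
theorem perturb_sub_mem_pow (hE : ∀ i, E (X i) - mkJ (X i) ∈ M ^ 2) (k : ℕ) :
    ∀ p ∈ J ^ k, E p - mkJ p ∈ M ^ (k + 1) := by
  induction k with
  | zero =>
    intro p _
    exact mem_pow_one_of_mem _ (perturb_sub_mem n E hE p)
  | succ k ih =>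
    intro p hp
    have hp' := mem_mul_of_mem_pow_succ _ hp
    refine Submodule.mul_induction_on hp' ?_ ?_
    · intro a ha b hb
      have : E (a * b) - mkJ (a * b) = E a * (E b - mkJ b) + (E a - mkJ a) * mkJ b := by
        rw [map_mul, map_mul]; ring
      rw [this]
      refine Ideal.add_mem _ ?_ ?_
      · exact mul_mem_pow_add (k := k) (l := 2) _ (perturb_map_pow_mem n E hE k a ha)
          (perturb_sub_mem_sq n E hE b hb)
      · exact mul_mem_pow_succ _ (ih a ha) (Ideal.mem_map_of_mem mkJ hb)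
    · intro p₁ p₂ h₁ h₂
      have : E (p₁ + p₂) - mkJ (p₁ + p₂) = (E p₁ - mkJ p₁) + (E p₂ - mkJ p₂) := by
        rw [map_add, map_add]; ring
      rw [this]
      exact Ideal.add_mem _ h₁ h₂

include E in
/-- A `K`-algebra map `E : K[X] → K[X] / J ^ n` with `E X_i ≡ X_i` modulo the square of the
maximal ideal has kernel contained in `J ^ n`. -/
theorem ker_le_pow_of_sub_mem (hE : ∀ i, E (X i) - mkJ (X i) ∈ M ^ 2) (p : P) (hp : E p = 0) :
    p ∈ J ^ n := by
  have key : ∀ k, k ≤ n → p ∈ J ^ k := by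
    intro k
    induction k with
    | zero => intro _; exact mem_pow_zero _ _
    | succ k ih =>
      intro hk
      have hpk := ih (Nat.le_of_succ_le hk)
      have h := perturb_sub_mem_pow n E hE k p hpk
      rw [hp, zero_sub, neg_mem_iff] at h
      have h' := mem_map_pow_of_mem_pow_map _ _ h
      obtain ⟨q, hq, hqp⟩ := (Ideal.mem_map_iff_of_surjective _
        Ideal.Quotient.mk_surjective).mp h'
      have hsub : q - p ∈ J ^ n := by
        rw [← Ideal.Quotient.eq_zero_iff_mem, map_sub, hqp, sub_self]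
      have hsub' : q - p ∈ J ^ (k + 1) := mem_pow_of_le _ hk hsub
      have : p = q - (q - p) := by ring
      rw [this]
      exact Ideal.sub_mem _ hq hsub'
  exact key n le_rfl

end Perturb

end Fermat.Agent.S26.H207
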