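import Fermat.Agent.S26.H207.PowerSeriesUFD

/-!
# Row S26, leaf UFD, step U3c: linear change of variables (helper207)

Over an infinite field `K`, every nonzero power series `f` in the variables `X 0, …, X d`
becomes regular in `X 0` after a linear change of variables
`X 0 ↦ v 0 • X 0`, `X s ↦ X s + v s • X 0` (`s ≠ 0`), `v 0 ≠ 0`.
-/

set_option autoImplicit false

universe u

open IsLocalRing

namespace Fermat.Agent.S26.H207

section LinearChange

variable {K : Type u} [Field K] {d : ℕ}

/-- The linear family `X 0 ↦ v 0 • X 0`, `X s ↦ X s + v s • X 0` for `s ≠ 0`. -/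
noncomputable def linFam (v : Fin (d + 1) → K) :
    Fin (d + 1) → MvPowerSeries (Fin (d + 1)) K :=
  fun s => (if s = 0 then 0 else MvPowerSeries.X s) +
    MvPowerSeries.C (v s) * MvPowerSeries.X 0

theorem hasSubst_linFam (v : Fin (d + 1) → K) : MvPowerSeries.HasSubst (linFam v) := by
  refine MvPowerSeries.hasSubst_of_constantCoeff_zero fun s => ?_
  unfold linFam
  split_ifs <;> simp

/-- The parameters of the inverse linear change of variables. -/
noncomputable def invParam (v : Fin (d + 1) → K) : Fin (d + 1) → K :=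
  fun s => if s = 0 then (v 0)⁻¹ else -(v s) / v 0

theorem invParam_zero (v : Fin (d + 1) → K) : invParam v 0 = (v 0)⁻¹ := by
  simp [invParam]

theorem invParam_invParam (v : Fin (d + 1) → K) (hv : v 0 ≠ 0) : invParam (invParam v) = v := by
  funext s
  by_cases hs : s = 0
  · subst hs
    simp [invParam]
  · simp only [invParam, if_neg hs, if_true]
    field_simp

theorem subst_linFam_linFam (v : Fin (d + 1) → K) (hv : v 0 ≠ 0) (s : Fin (d + 1)) :
    MvPowerSeries.subst (linFam (invParam v)) (linFam v s) =
      (MvPowerSeries.X s : MvPowerSeries (Fin (d + 1)) K) := by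
  have hb := hasSubst_linFam (invParam v)
  have h0 : linFam (invParam v) 0 =
      MvPowerSeries.C ((v 0)⁻¹) * (MvPowerSeries.X 0 : MvPowerSeries (Fin (d + 1)) K) := by
    simp [linFam, invParam]
  by_cases hs : s = 0
  · subst hs
    have : linFam v 0 = MvPowerSeries.C (v 0) *
        (MvPowerSeries.X 0 : MvPowerSeries (Fin (d + 1)) K) := by simp [linFam]
    rw [this, MvPowerSeries.subst_mul hb, MvPowerSeries.subst_C, MvPowerSeries.subst_X hb, h0,
      ← mul_assoc, ← map_mul, mul_inv_cancel₀ hv, map_one, one_mul]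
  · have : linFam v s = MvPowerSeries.X s + MvPowerSeries.C (v s) *
        (MvPowerSeries.X 0 : MvPowerSeries (Fin (d + 1)) K) := by simp [linFam, hs]
    have hbs : linFam (invParam v) s = MvPowerSeries.X s + MvPowerSeries.C (-(v s) / v 0) *
        (MvPowerSeries.X 0 : MvPowerSeries (Fin (d + 1)) K) := by simp [linFam, invParam, hs]
    rw [this, MvPowerSeries.subst_add hb, MvPowerSeries.subst_mul hb, MvPowerSeries.subst_C,
      MvPowerSeries.subst_X hb, MvPowerSeries.subst_X hb, h0, hbs, add_assoc, ← mul_assoc,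
      ← map_mul, ← add_mul, ← map_add]
    have : -(v s) / v 0 + v s * (v 0)⁻¹ = 0 := by field_simp; ring
    rw [this, map_zero, zero_mul, add_zero]

theorem substAlgHom_linFam_comp (v : Fin (d + 1) → K) (hv : v 0 ≠ 0)
    (f : MvPowerSeries (Fin (d + 1)) K) :
    MvPowerSeries.substAlgHom (R := K) (hasSubst_linFam (invParam v))
      (MvPowerSeries.substAlgHom (R := K) (hasSubst_linFam v) f) = f := by
  rw [MvPowerSeries.substAlgHom_comp_substAlgHom_apply, MvPowerSeries.substAlgHom_apply]
  have : (fun s => MvPowerSeries.substAlgHom (R := K) (hasSubst_linFam (invParam v))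
      (linFam v s)) = MvPowerSeries.X := by
    funext s
    rw [MvPowerSeries.substAlgHom_apply, subst_linFam_linFam v hv s]
  rw [this, MvPowerSeries.subst_self]
  rfl

/-- The linear change of variables as a ring automorphism. -/
noncomputable def linEquiv (v : Fin (d + 1) → K) (hv : v 0 ≠ 0) :
    MvPowerSeries (Fin (d + 1)) K ≃+* MvPowerSeries (Fin (d + 1)) K :=
  RingEquiv.ofRingHom (MvPowerSeries.substAlgHom (R := K) (hasSubst_linFam v)).toRingHom
    (MvPowerSeries.substAlgHom (R := K) (hasSubst_linFam (invParam v))).toRingHom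
    (by
      ext f : 1
      have h := substAlgHom_linFam_comp (invParam v)
        (by rw [invParam_zero]; exact inv_ne_zero hv) f
      rw [invParam_invParam v hv] at h
      simpa using h)
    (by
      ext f : 1
      simpa using substAlgHom_linFam_comp v hv f)

theorem linEquiv_apply (v : Fin (d + 1) → K) (hv : v 0 ≠ 0) (f : MvPowerSeries (Fin (d + 1)) K) :
    linEquiv v hv f = MvPowerSeries.subst (linFam v) f := by
  simp [linEquiv]

end LinearChange

end Fermat.Agent.S26.H207

namespace Fermat.Agent.S26.H207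

section Restrict

variable {K : Type u} [Field K] {d : ℕ}

/-- Restriction to the `X 0`-axis: `X 0 ↦ T`, `X s ↦ 0` for `s ≠ 0`. -/
noncomputable def axisHom (K : Type u) [Field K] (d : ℕ) :
    MvPowerSeries (Fin (d + 1)) K →+* PowerSeries K :=
  (PowerSeries.map (MvPowerSeries.constantCoeff (σ := Fin d) (R := K))).comp
    (MvPowerSeries.finSuccEquiv K d).toRingEquiv.toRingHom

theorem coeff_axisHom (n : ℕ) (g : MvPowerSeries (Fin (d + 1)) K) :
    PowerSeries.coeff n (axisHom K d g) = MvPowerSeries.coeff (Finsupp.cons n 0) g := by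
  simp only [axisHom, RingHom.coe_comp, Function.comp_apply, PowerSeries.coeff_map]
  rw [← MvPowerSeries.coeff_zero_eq_constantCoeff_apply]
  exact MvPowerSeries.coeff_coeff_finSuccEquiv g

theorem axisHom_X_zero : axisHom K d (MvPowerSeries.X 0) = PowerSeries.X := by
  simp [axisHom]

theorem axisHom_X_succ (j : Fin d) : axisHom K d (MvPowerSeries.X j.succ) = 0 := by
  simp [axisHom]

theorem axisHom_C (r : K) : axisHom K d (MvPowerSeries.C r) = PowerSeries.C r := by
  simp [axisHom]

theorem axisHom_linFam (v : Fin (d + 1) → K) (s : Fin (d + 1)) :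
    axisHom K d (linFam v s) = PowerSeries.C (v s) * PowerSeries.X := by
  unfold linFam
  rw [map_add, map_mul, axisHom_C, axisHom_X_zero]
  by_cases hs : s = 0
  · simp [hs]
  · obtain ⟨j, rfl⟩ := Fin.exists_succ_eq.mpr hs
    rw [if_neg hs, axisHom_X_succ, zero_add]

theorem axisHom_prod_linFam (v : Fin (d + 1) → K) (m : Fin (d + 1) →₀ ℕ) :
    axisHom K d (m.prod fun s e => linFam v s ^ e) =
      PowerSeries.C (m.prod fun s e => v s ^ e) * PowerSeries.X ^ m.degree := by
  rw [Finsupp.prod_fintype _ _ (fun i => pow_zero _), Finsupp.prod_fintype _ _ (fun i => pow_zero _),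
    Finsupp.degree_eq_sum, map_prod, map_prod, ← Finset.prod_pow_eq_pow_sum,
    ← Finset.prod_mul_distrib]
  refine Finset.prod_congr rfl fun s _ => ?_
  rw [map_pow, axisHom_linFam, mul_pow, map_pow]

/-- The coefficient of `X 0 ^ n` in the linear change of variables of `f`. -/
theorem coeff_cons_subst_linFam (v : Fin (d + 1) → K) (f : MvPowerSeries (Fin (d + 1)) K)
    (n : ℕ) :
    MvPowerSeries.coeff (Finsupp.cons n 0) (MvPowerSeries.subst (linFam v) f) =
      ∑ᶠ m : Fin (d + 1) →₀ ℕ, MvPowerSeries.coeff m f *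
        (if m.degree = n then m.prod fun s e => v s ^ e else 0) := by
  rw [MvPowerSeries.coeff_subst (hasSubst_linFam v)]
  refine finsum_congr fun m => ?_
  rw [smul_eq_mul, ← coeff_axisHom, axisHom_prod_linFam, PowerSeries.coeff_C_mul,
    PowerSeries.coeff_X_pow]
  congr 1
  split_ifs with h1 h2 h2
  · simp
  · exact absurd h1.symm h2
  · exact absurd h2.symm h1
  · simp

end Restrict

end Fermat.Agent.S26.H207

namespace Fermat.Agent.S26.H207

section Regular

variable {K : Type u} [Field K] {d : ℕ}

/-- The degree `n` part of a power series, as a polynomial. -/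
noncomputable def homPart (f : MvPowerSeries (Fin (d + 1)) K) (n : ℕ) :
    MvPolynomial (Fin (d + 1)) K :=
  ∑ m ∈ Finset.finsuppAntidiag (Finset.univ : Finset (Fin (d + 1))) n,
    MvPolynomial.monomial m (MvPowerSeries.coeff m f)

theorem mem_finsuppAntidiag_univ_iff (m : Fin (d + 1) →₀ ℕ) (n : ℕ) :
    m ∈ Finset.finsuppAntidiag (Finset.univ : Finset (Fin (d + 1))) n ↔ m.degree = n := by
  rw [Finset.mem_finsuppAntidiag, Finsupp.degree_eq_sum]
  simp

theorem coeff_homPart (f : MvPowerSeries (Fin (d + 1)) K) (m : Fin (d + 1) →₀ ℕ) :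
    MvPolynomial.coeff m (homPart f m.degree) = MvPowerSeries.coeff m f := by
  classical
  rw [homPart, MvPolynomial.coeff_sum]
  simp only [MvPolynomial.coeff_monomial]
  rw [Finset.sum_eq_single m]
  · simp
  · intro b _ hb
    rw [if_neg hb]
  · intro h
    exact absurd ((mem_finsuppAntidiag_univ_iff m m.degree).mpr rfl) h

theorem eval_homPart (f : MvPowerSeries (Fin (d + 1)) K) (n : ℕ) (v : Fin (d + 1) → K) :
    MvPolynomial.eval v (homPart f n) =
      ∑ᶠ m : Fin (d + 1) →₀ ℕ, MvPowerSeries.coeff m f *
        (if m.degree = n then m.prod fun s e => v s ^ e else 0) := by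
  rw [finsum_eq_sum_of_support_subset (s :=
    Finset.finsuppAntidiag (Finset.univ : Finset (Fin (d + 1))) n)]
  · rw [homPart, map_sum]
    refine Finset.sum_congr rfl fun m hm => ?_
    rw [MvPolynomial.eval_monomial, if_pos ((mem_finsuppAntidiag_univ_iff m n).mp hm)]
  · intro m hm
    rw [Function.mem_support] at hm
    rw [Finset.mem_coe, mem_finsuppAntidiag_univ_iff]
    by_contra h
    exact hm (by rw [if_neg h, mul_zero])

/-- **U3c.** Over an infinite field every nonzero power series becomes regular in the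
variable `X 0` after a linear change of variables. -/
theorem exists_ringEquiv_regular (K : Type u) [Field K] [Infinite K] (d : ℕ)
    (f : MvPowerSeries (Fin (d + 1)) K) (hf : f ≠ 0) :
    ∃ σ : MvPowerSeries (Fin (d + 1)) K ≃+* MvPowerSeries (Fin (d + 1)) K,
      (MvPowerSeries.finSuccEquiv K d (σ f)).map (residue (MvPowerSeries (Fin d) K)) ≠ 0 := by
  obtain ⟨m₀, hm₀⟩ : ∃ m₀, MvPowerSeries.coeff m₀ f ≠ 0 := by
    by_contra hcon
    push Not at hcon
    exact hf (MvPowerSeries.ext fun m => by simpa using hcon m)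
  have hp : homPart f m₀.degree ≠ 0 := by
    intro h
    apply hm₀
    rw [← coeff_homPart, h, MvPolynomial.coeff_zero]
  have hq : homPart f m₀.degree * MvPolynomial.X 0 ≠ 0 :=
    mul_ne_zero hp (MvPolynomial.X_ne_zero 0)
  obtain ⟨v, hv⟩ : ∃ v : Fin (d + 1) → K,
      MvPolynomial.eval v (homPart f m₀.degree * MvPolynomial.X 0) ≠ 0 := by
    by_contra hcon
    push Not at hcon
    exact hq (MvPolynomial.funext fun x => by rw [hcon x, map_zero])
  rw [map_mul, MvPolynomial.eval_X] at hv
  have hv0 : v 0 ≠ 0 := right_ne_zero_of_mul hv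
  have hvp : MvPolynomial.eval v (homPart f m₀.degree) ≠ 0 := left_ne_zero_of_mul hv
  refine ⟨linEquiv v hv0, fun hzero => hvp ?_⟩
  have h1 := congrArg (PowerSeries.coeff m₀.degree) hzero
  rw [PowerSeries.coeff_map, map_zero, residue_mvPowerSeries_eq_zero_iff,
    ← MvPowerSeries.coeff_zero_eq_constantCoeff_apply, MvPowerSeries.coeff_coeff_finSuccEquiv,
    linEquiv_apply, coeff_cons_subst_linFam] at h1
  rw [eval_homPart]
  exact h1

/-- U3c in the form used by `ufm_mvPowerSeries_of_regular`. -/
theorem regularChange (K : Type u) [Field K] [Infinite K] : RegularChange K :=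
  fun d f hf => exists_ringEquiv_regular K d f hf

/-- **U3.** Power series rings in finitely many variables over an infinite field are unique
factorisation domains. -/
theorem ufm_mvPowerSeries (K : Type u) [Field K] [Infinite K] (d : ℕ) :
    UniqueFactorizationMonoid (MvPowerSeries (Fin d) K) :=
  ufm_mvPowerSeries_of_regular K (regularChange K) d

end Regular

end Fermat.Agent.S26.H207
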