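import Fermat.Agent.S26.H207.Completion
import Fermat.Agent.S26.H207.LinearChange
import Fermat.Agent.S26.H207.Descent

/-!
# Row S26, leaf UFD: local rings of smooth varieties are unique factorisation domains (helper207)

* `ufm_of_formallySmooth_of_isLocalRing`: a noetherian local `K`-algebra, formally smooth over
  the infinite field `K` and with residue field `K`, is a unique factorisation domain.
* `ufm_localization_of_formallySmooth`: the local rings at the maximal ideals of a formally
  smooth finite type algebra over an algebraically closed field are unique factorisation
  domains.

The proof goes through the completion: it is a power series ring (`exists_adicCompletion_equiv`),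
which is a UFD (`ufm_mvPowerSeries`), and the UFD property descends along the faithfully flat
map `R → R̂` (`ufm_of_faithfullyFlat`).
-/

set_option autoImplicit false

universe u

open IsLocalRing

namespace Fermat.Agent.S26.H207

/-- **U5 (local form).** -/
theorem ufm_of_formallySmooth_of_isLocalRing (K : Type u) [Field K] [Infinite K] (R : Type u)
    [CommRing R] [Algebra K R] [IsLocalRing R] [IsNoetherianRing R] [Algebra.FormallySmooth K R]
    (hres : Function.Surjective (algebraMap K (ResidueField R))) :
    IsDomain R ∧ UniqueFactorizationMonoid R := by
  obtain ⟨d, ⟨e⟩⟩ := exists_adicCompletion_equiv K R hres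
  have : IsDomain (MvPowerSeries (Fin d) K) := isDomain_mvPowerSeries K d
  have hSdom : IsDomain (AdicCompletion (maximalIdeal R) R) := e.toMulEquiv.isDomain _
  have hSufm : UniqueFactorizationMonoid (AdicCompletion (maximalIdeal R) R) :=
    e.symm.toMulEquiv.uniqueFactorizationMonoid (ufm_mvPowerSeries K d)
  have : Module.FaithfullyFlat R (AdicCompletion (maximalIdeal R) R) :=
    Module.FaithfullyFlat.of_flat_of_isLocalHom
  have hinj : Function.Injective (algebraMap R (AdicCompletion (maximalIdeal R) R)) :=
    FaithfulSMul.algebraMap_injective _ _
  have : IsDomain R := hinj.isDomain _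
  exact ⟨inferInstance, ufm_of_faithfullyFlat R (AdicCompletion (maximalIdeal R) R)⟩

/-- **U0 (residue field).** The residue field of the local ring at a maximal ideal of a finite
type algebra over an algebraically closed field `K` is `K`. -/
theorem algebraMap_residueField_localization_surjective (K : Type u) [Field K] [IsAlgClosed K]
    (B : Type u) [CommRing B] [Algebra K B] [Algebra.FiniteType K B]
    (m : Ideal B) [m.IsMaximal] :
    Function.Surjective (algebraMap K (ResidueField (Localization.AtPrime m))) := by
  have hbij : Function.Bijective (algebraMap K (B ⧸ m)) := by
    let _ := Ideal.Quotient.field m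
    have hfin : Module.Finite K (B ⧸ m) := finite_of_finite_type_of_isJacobsonRing K (B ⧸ m)
    exact IsAlgClosed.algebraMap_bijective_of_isIntegral
  intro y
  let e := IsLocalization.AtPrime.equivQuotMaximalIdeal m (Localization.AtPrime m)
  let y' : Localization.AtPrime m ⧸ maximalIdeal (Localization.AtPrime m) := y
  obtain ⟨c, hc⟩ := hbij.2 (e.symm y')
  refine ⟨c, ?_⟩
  have h1 : e (algebraMap K (B ⧸ m) c) = y' := by
    rw [hc]
    exact e.apply_symm_apply y'
  exact h1

/-- **UFD.** The local rings at the closed points of a smooth variety over an algebraically
closed field are unique factorisation domains. -/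
theorem ufm_localization_of_formallySmooth (K : Type u) [Field K] [IsAlgClosed K] (B : Type u)
    [CommRing B] [Algebra K B] [Algebra.FiniteType K B] [Algebra.FormallySmooth K B]
    (m : Ideal B) [m.IsMaximal] :
    IsDomain (Localization.AtPrime m) ∧ UniqueFactorizationMonoid (Localization.AtPrime m) := by
  have hnoeth : IsNoetherianRing B := Algebra.FiniteType.isNoetherianRing K B
  have : IsNoetherianRing (Localization.AtPrime m) :=
    IsLocalization.isNoetherianRing m.primeCompl _ hnoeth
  have : Algebra.FormallySmooth K (Localization.AtPrime m) :=
    Algebra.FormallySmooth.comp K B (Localization.AtPrime m)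
  exact ufm_of_formallySmooth_of_isLocalRing K (Localization.AtPrime m)
    (algebraMap_residueField_localization_surjective K B m)

end Fermat.Agent.S26.H207
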