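import Mathlib

/-!
# Row S26, leaf UFD, step U3a: `K⟦X_1, …, X_d⟧` is a complete local ring (helper207)

* `maximalIdeal_mvPowerSeries` : the maximal ideal of `K⟦X_1, …, X_d⟧` is `(X_1, …, X_d)`;
* `isAdicComplete_mvPowerSeries` : `K⟦X_1, …, X_d⟧` is complete for its maximal ideal.
-/

set_option autoImplicit false

universe u

open IsLocalRing

namespace Fermat.Agent.S26.H207

section Complete

variable (K : Type u) [Field K] (d : ℕ)

open Classical in
/-- A power series without constant term lies in the ideal generated by the variables. -/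
theorem mem_span_range_X_of_constantCoeff_eq_zero (f : MvPowerSeries (Fin d) K)
    (hf : MvPowerSeries.constantCoeff f = 0) :
    f ∈ Ideal.span (Set.range (MvPowerSeries.X : Fin d → MvPowerSeries (Fin d) K)) := by
  -- the part of `f` consisting of the monomials whose least variable is `X i`
  let part : Fin d → MvPowerSeries (Fin d) K := fun i m =>
    if ∃ h : m.support.Nonempty, m.support.min' h = i then MvPowerSeries.coeff m f else 0
  have hpart : ∀ i m, MvPowerSeries.coeff m (part i) =
      if ∃ h : m.support.Nonempty, m.support.min' h = i then MvPowerSeries.coeff m f else 0 :=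
    fun i m => rfl
  have hsum : f = ∑ i, part i := by
    ext m
    rw [map_sum]
    simp only [hpart]
    by_cases hm : m.support.Nonempty
    · rw [Finset.sum_eq_single (m.support.min' hm)]
      · rw [if_pos ⟨hm, rfl⟩]
      · intro i _ hi
        rw [if_neg]
        rintro ⟨_, h⟩
        exact hi h.symm
      · intro h
        exact absurd (Finset.mem_univ _) h
    · have hm0 : m = 0 := by
        rw [Finset.not_nonempty_iff_eq_empty, Finsupp.support_eq_empty] at hm
        exact hm
      rw [Finset.sum_eq_zero]
      · rw [hm0]
        simpa using hf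
      · intro i _
        rw [if_neg]
        rintro ⟨h, _⟩
        exact hm h
  rw [hsum]
  refine Ideal.sum_mem _ fun i _ => ?_
  have hdvd : (MvPowerSeries.X i : MvPowerSeries (Fin d) K) ∣ part i := by
    rw [MvPowerSeries.X_dvd_iff]
    intro m hm
    rw [hpart, if_neg]
    rintro ⟨h, hi⟩
    have := Finset.min'_mem m.support h
    rw [hi, Finsupp.mem_support_iff] at this
    exact this hm
  obtain ⟨g, hg⟩ := hdvd
  rw [hg]
  exact Ideal.mul_mem_right _ _ (Ideal.subset_span ⟨i, rfl⟩)

/-- The maximal ideal of `K⟦X_1, …, X_d⟧` is generated by the variables. -/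
theorem maximalIdeal_mvPowerSeries :
    maximalIdeal (MvPowerSeries (Fin d) K) =
      Ideal.span (Set.range (MvPowerSeries.X : Fin d → MvPowerSeries (Fin d) K)) := by
  apply le_antisymm
  · intro f hf
    apply mem_span_range_X_of_constantCoeff_eq_zero
    rw [mem_maximalIdeal, mem_nonunits_iff, MvPowerSeries.isUnit_iff_constantCoeff] at hf
    by_contra h
    exact hf (isUnit_iff_ne_zero.mpr h)
  · rw [Ideal.span_le]
    rintro _ ⟨i, rfl⟩
    rw [SetLike.mem_coe, mem_maximalIdeal, mem_nonunits_iff,
      MvPowerSeries.isUnit_iff_constantCoeff]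
    simp

/-- **U3a.** `K⟦X_1, …, X_d⟧` is complete for its maximal ideal. -/
theorem isAdicComplete_mvPowerSeries :
    IsAdicComplete (maximalIdeal (MvPowerSeries (Fin d) K)) (MvPowerSeries (Fin d) K) := by
  rw [maximalIdeal_mvPowerSeries]
  infer_instance

/-- The residue class of a power series vanishes iff its constant coefficient does. -/
theorem residue_mvPowerSeries_eq_zero_iff (f : MvPowerSeries (Fin d) K) :
    residue (MvPowerSeries (Fin d) K) f = 0 ↔ MvPowerSeries.constantCoeff f = 0 := by
  rw [residue_eq_zero_iff, mem_maximalIdeal, mem_nonunits_iff,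
    MvPowerSeries.isUnit_iff_constantCoeff, isUnit_iff_ne_zero, not_not]

end Complete

end Fermat.Agent.S26.H207
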