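import Fermat.Agent.S26.H207.Weierstrass
import Fermat.Agent.S26.H207.PowerSeriesComplete

/-!
# Row S26, leaf UFD, step U3 (assembly): `K⟦X_1, …, X_d⟧` is a UFD (helper207)

`ufm_mvPowerSeries_of_regular` : induction on `d`, from
* U3a (`isAdicComplete_mvPowerSeries`),
* U3b (`prime_of_irreducible_of_regular`),
* U3c, taken as a hypothesis `RegularChange K`: every nonzero power series in `d + 1` variables
  becomes regular in `X 0` after a ring automorphism.
-/

set_option autoImplicit false

universe u

open IsLocalRing

namespace Fermat.Agent.S26.H207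

/-- The statement U3c (change of variables): every nonzero power series in `d + 1` variables
over `K` becomes regular in the variable `X 0` after a suitable ring automorphism. -/
def RegularChange (K : Type u) [Field K] : Prop :=
  ∀ (d : ℕ) (f : MvPowerSeries (Fin (d + 1)) K), f ≠ 0 →
    ∃ σ : MvPowerSeries (Fin (d + 1)) K ≃+* MvPowerSeries (Fin (d + 1)) K,
      (MvPowerSeries.finSuccEquiv K d (σ f)).map (residue (MvPowerSeries (Fin d) K)) ≠ 0

theorem isDomain_mvPowerSeries (K : Type u) [Field K] (d : ℕ) :
    IsDomain (MvPowerSeries (Fin d) K) := NoZeroDivisors.to_isDomain _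

/-- **U3 (assembly).** Power series rings in finitely many variables over a field are unique
factorisation domains, given the change of variables U3c. -/
theorem ufm_mvPowerSeries_of_regular (K : Type u) [Field K] (hreg : RegularChange K) (d : ℕ) :
    UniqueFactorizationMonoid (MvPowerSeries (Fin d) K) := by
  induction d with
  | zero =>
    exact (MvPowerSeries.isEmptyEquiv (σ := Fin 0) (R := K)).symm.toMulEquiv.uniqueFactorizationMonoid
      inferInstance
  | succ d ih =>
    have := ih
    have := isAdicComplete_mvPowerSeries K d
    have hdom : IsDomain (MvPowerSeries (Fin d) K) := NoZeroDivisors.to_isDomain _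
    have hdom' : IsDomain (MvPowerSeries (Fin (d + 1)) K) := NoZeroDivisors.to_isDomain _
    have : WfDvdMonoid (MvPowerSeries (Fin (d + 1)) K) := inferInstance
    refine { irreducible_iff_prime := fun {f} => ⟨fun hf => ?_, Prime.irreducible⟩ }
    obtain ⟨σ, hσ⟩ := hreg d f hf.ne_zero
    let e : MvPowerSeries (Fin (d + 1)) K ≃* PowerSeries (MvPowerSeries (Fin d) K) :=
      σ.toMulEquiv.trans (MvPowerSeries.finSuccEquiv K d).toMulEquiv
    have hirr : Irreducible (e f) := (MulEquiv.irreducible_iff e).mpr hf
    have hprime : Prime (e f) := prime_of_irreducible_of_regular (e f) hirr hσ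
    exact (MulEquiv.prime_iff e).mp hprime

end Fermat.Agent.S26.H207
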