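import Fermat.Agent.S26.H207.Infinitesimal

/-!
# Row S26, leaf UFD, step U1: infinitesimal neighbourhoods of a smooth rational point (helper207)

Let `R` be a noetherian local `K`-algebra, formally smooth over `K`, with residue field `K`.
For a system `x_1, …, x_d` of elements of the maximal ideal `𝔫` whose classes form a basis of
the cotangent space, the map `K[X_1..X_d] → R / 𝔫 ^ n` is onto with kernel `(X_1..X_d) ^ n`,
for every `n` (`exists_bijective_quotient_pow`).
-/

set_option autoImplicit false

universe u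

open IsLocalRing MvPolynomial

namespace Fermat.Agent.S26.H207

section Local

variable {K : Type u} [Field K] {R : Type u} [CommRing R] [Algebra K R] [IsLocalRing R]

/-- `R = K + 𝔫` when the residue field is `K`. -/
theorem exists_sub_algebraMap_mem_maximalIdeal
    (hres : Function.Surjective (algebraMap K (ResidueField R))) (r : R) :
    ∃ c : K, r - algebraMap K R c ∈ maximalIdeal R := by
  obtain ⟨c, hc⟩ := hres (residue R r)
  refine ⟨c, ?_⟩
  rw [← residue_eq_zero_iff, map_sub, ← hc, sub_eq_zero]
  rfl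

/-- A scalar of `K` lying in the maximal ideal vanishes. -/
theorem eq_zero_of_algebraMap_mem_maximalIdeal (c : K)
    (hc : algebraMap K R c ∈ maximalIdeal R) : c = 0 := by
  by_contra h
  have hu : IsUnit (algebraMap K R c) := (isUnit_iff_ne_zero.mpr h).map _
  exact (mem_maximalIdeal _).mp hc hu

variable [IsNoetherianRing R]

/-- A regular system of parameters at a rational point: `x_1, …, x_d` generate `𝔫` and are
linearly independent over `K` modulo `𝔫 ^ 2`. -/
theorem exists_cotangent_basis (K : Type u) [Field K] (R : Type u) [CommRing R] [Algebra K R]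
    [IsLocalRing R] [IsNoetherianRing R] :
    ∃ (d : ℕ) (x : Fin d → R), maximalIdeal R = Ideal.span (Set.range x) ∧
      ∀ a : Fin d → K, ∑ i, algebraMap K R (a i) * x i ∈ maximalIdeal R ^ 2 → a = 0 := by
  let b := Module.finBasis (ResidueField R) (CotangentSpace R)
  set d := Module.finrank (ResidueField R) (CotangentSpace R) with hd
  have hsurj := (maximalIdeal R).toCotangent_surjective
  choose y hy using fun i : Fin d => hsurj (b i)
  refine ⟨d, fun i => (y i : R), ?_, ?_⟩
  · have hspan : Submodule.span R (Set.range y) = ⊤ := by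
      rw [← CotangentSpace.span_image_eq_top_iff, ← Set.range_comp]
      have : (maximalIdeal R).toCotangent ∘ y = b := funext hy
      rw [this]
      exact b.span_eq
    have := congrArg (Submodule.map (maximalIdeal R).subtype) hspan
    rw [Submodule.map_span, Submodule.map_top, Submodule.range_subtype, ← Set.range_comp] at this
    exact this.symm
  · intro a ha
    have hz : (∑ i, algebraMap K R (a i) • y i : maximalIdeal R) ∈
        LinearMap.ker (maximalIdeal R).toCotangent := by
      rw [Ideal.mem_toCotangent_ker]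
      have hcoe : ((∑ i, algebraMap K R (a i) • y i : maximalIdeal R) : R) =
          ∑ i, algebraMap K R (a i) * (y i : R) := by
        rw [Submodule.coe_sum]
        rfl
      rw [hcoe]
      exact ha
    rw [LinearMap.mem_ker, map_sum] at hz
    have hz' : ∑ i, residue R (algebraMap K R (a i)) • b i = 0 := by
      rw [← hz]
      refine Finset.sum_congr rfl fun i _ => ?_
      rw [map_smul, hy]
      rfl
    have hli := (Fintype.linearIndependent_iff.mp b.linearIndependent) _ hz'
    funext i
    have h0 := hli i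
    rw [residue_eq_zero_iff] at h0
    exact eq_zero_of_algebraMap_mem_maximalIdeal (a i) h0

end Local

section Poly

variable {K : Type u} [Field K] {d : ℕ}

/-- A polynomial minus its constant term lies in the ideal of the variables. -/
theorem sub_C_constantCoeff_mem (p : MvPolynomial (Fin d) K) :
    p - C (constantCoeff p) ∈ idealOfVars (Fin d) K := by
  apply mem_of_mem_pow_one
  rw [mem_pow_idealOfVars_iff']
  intro m hm
  have hm0 : m = 0 := by
    have : m.degree = 0 := by omega
    exact (Finsupp.degree_eq_zero_iff m).mp this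
  rw [hm0]
  simp [constantCoeff_eq]

/-- Modulo the square of the ideal of the variables, every element of that ideal is a linear
form. -/
theorem exists_linear_sub_mem_sq (j : MvPolynomial (Fin d) K) (hj : j ∈ idealOfVars (Fin d) K) :
    ∃ a : Fin d → K, j - ∑ i, C (a i) * X i ∈ idealOfVars (Fin d) K ^ 2 := by
  classical
  induction hj using Submodule.span_induction with
  | mem j hj' =>
    obtain ⟨i, rfl⟩ := hj'
    refine ⟨Pi.single i 1, ?_⟩
    have : ∑ k, C ((Pi.single i 1 : Fin d → K) k) * X k = (X i : MvPolynomial (Fin d) K) := by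
      rw [Finset.sum_eq_single i]
      · simp
      · intro k _ hk
        simp [Pi.single_eq_of_ne hk]
      · intro h
        exact absurd (Finset.mem_univ i) h
    rw [this, sub_self]
    exact Ideal.zero_mem _
  | zero => exact ⟨0, by simp⟩
  | add j₁ j₂ _ _ h₁ h₂ =>
    obtain ⟨a₁, h₁⟩ := h₁
    obtain ⟨a₂, h₂⟩ := h₂
    refine ⟨a₁ + a₂, ?_⟩
    have : j₁ + j₂ - ∑ i, C ((a₁ + a₂) i) * X i =
        (j₁ - ∑ i, C (a₁ i) * X i) + (j₂ - ∑ i, C (a₂ i) * X i) := by
      simp only [Pi.add_apply, map_add, add_mul, Finset.sum_add_distrib]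
      ring
    rw [this]
    exact Ideal.add_mem _ h₁ h₂
  | smul r j hj h =>
    obtain ⟨a, ha⟩ := h
    refine ⟨fun i => constantCoeff r * a i, ?_⟩
    have hr := sub_C_constantCoeff_mem r
    have hjJ : j ∈ idealOfVars (Fin d) K := hj
    have : r • j - ∑ i, C (constantCoeff r * a i) * X i =
        (r - C (constantCoeff r)) * j + C (constantCoeff r) * (j - ∑ i, C (a i) * X i) := by
      simp only [map_mul, smul_eq_mul, mul_sub, Finset.mul_sum, mul_assoc]
      ring
    rw [this]
    exact Ideal.add_mem _ (mem_pow_two_of_mul _ hr hjJ) (Ideal.mul_mem_left _ _ ha)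

end Poly

section Main

variable {K : Type u} [Field K] {R : Type u} [CommRing R] [Algebra K R] [IsLocalRing R]
  {d : ℕ} (x : Fin d → R)

/-- `θ = aeval x` maps `J ^ k` into `𝔫 ^ k`. -/
theorem aeval_mem_pow (hx : ∀ i, x i ∈ maximalIdeal R) (k : ℕ) (p : MvPolynomial (Fin d) K)
    (hp : p ∈ idealOfVars (Fin d) K ^ k) : aeval x p ∈ maximalIdeal R ^ k := by
  have h1 : (idealOfVars (Fin d) K).map (aeval (R := K) x) ≤ maximalIdeal R := by
    rw [Ideal.map_le_iff_le_comap, idealOfVars, Ideal.span_le]
    rintro _ ⟨i, rfl⟩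
    simpa using hx i
  have h2 : (idealOfVars (Fin d) K ^ k).map (aeval (R := K) x) ≤ maximalIdeal R ^ k := by
    rw [Ideal.map_pow]
    exact Ideal.pow_right_mono h1 k
  exact h2 (Ideal.mem_map_of_mem _ hp)

/-- Case `n = 1` of the injectivity. -/
theorem mem_idealOfVars_of_aeval_mem (hx : ∀ i, x i ∈ maximalIdeal R)
    (p : MvPolynomial (Fin d) K) (hp : aeval x p ∈ maximalIdeal R) :
    p ∈ idealOfVars (Fin d) K := by
  have hj := sub_C_constantCoeff_mem p
  have h1 := aeval_mem_pow x hx 1 _ (mem_pow_one_of_mem _ hj)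
  have h1' := mem_of_mem_pow_one _ h1
  rw [map_sub, aeval_C] at h1'
  have hc : algebraMap K R (constantCoeff p) ∈ maximalIdeal R := by
    have := Ideal.sub_mem _ hp h1'
    simpa using this
  have hc0 := eq_zero_of_algebraMap_mem_maximalIdeal _ hc
  rw [hc0, map_zero, sub_zero] at hj
  exact hj

/-- Case `n = 2` of the injectivity: uses only the linear independence of the `x i` modulo
`𝔫 ^ 2`. -/
theorem mem_sq_of_aeval_mem_sq (hx : ∀ i, x i ∈ maximalIdeal R)
    (hli : ∀ a : Fin d → K, ∑ i, algebraMap K R (a i) * x i ∈ maximalIdeal R ^ 2 → a = 0)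
    (p : MvPolynomial (Fin d) K) (hp : aeval x p ∈ maximalIdeal R ^ 2) :
    p ∈ idealOfVars (Fin d) K ^ 2 := by
  have hpJ : p ∈ idealOfVars (Fin d) K :=
    mem_idealOfVars_of_aeval_mem x hx p (mem_of_mem_pow_two _ hp)
  obtain ⟨a, ha⟩ := exists_linear_sub_mem_sq p hpJ
  have h2 := aeval_mem_pow x hx 2 _ ha
  have hsum : ∑ i, algebraMap K R (a i) * x i ∈ maximalIdeal R ^ 2 := by
    have : ∑ i, algebraMap K R (a i) * x i =
        aeval x p - aeval x (p - ∑ i, C (a i) * X i) := by
      simp [map_sub, map_sum]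
    rw [this]
    exact Ideal.sub_mem _ hp h2
  have ha0 := hli a hsum
  rw [ha0] at ha
  simpa using ha

end Main

section Lift

variable {K : Type u} [Field K] {R : Type u} [CommRing R] [Algebra K R] [IsLocalRing R]
  {d : ℕ} (x : Fin d → R)

/-- The evaluation map `K[X_1..X_d] → R / 𝔫 ^ n` at a system of parameters. -/
noncomputable def evalMod (n : ℕ) : MvPolynomial (Fin d) K →ₐ[K] R ⧸ maximalIdeal R ^ n :=
  (Ideal.Quotient.mkₐ K (maximalIdeal R ^ n)).comp (aeval x)

theorem evalMod_apply (n : ℕ) (p : MvPolynomial (Fin d) K) :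
    evalMod x n p = Ideal.Quotient.mk (maximalIdeal R ^ n) (aeval x p) := rfl

theorem evalMod_eq_zero_iff (n : ℕ) (p : MvPolynomial (Fin d) K) :
    evalMod x n p = 0 ↔ aeval x p ∈ maximalIdeal R ^ n := by
  rw [evalMod_apply, Ideal.Quotient.eq_zero_iff_mem]

theorem evalMod_surjective (hres : Function.Surjective (algebraMap K (ResidueField R)))
    (hgen : maximalIdeal R = Ideal.span (Set.range x)) (n : ℕ) :
    Function.Surjective (evalMod (K := K) x n) := by
  intro y
  obtain ⟨r, rfl⟩ := Ideal.Quotient.mk_surjective y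
  obtain ⟨p, hp⟩ := exists_sub_aeval_mem_pow (K := K) (maximalIdeal R) x
    (exists_sub_algebraMap_mem_maximalIdeal hres) hgen n r
  refine ⟨p, ?_⟩
  rw [evalMod_apply]
  exact (Ideal.Quotient.eq.mpr hp).symm

theorem mem_maximalIdeal_of_span (hgen : maximalIdeal R = Ideal.span (Set.range x)) (i : Fin d) :
    x i ∈ maximalIdeal R := by
  rw [hgen]
  exact Ideal.subset_span ⟨i, rfl⟩

theorem ker_evalMod_two_le (hx : ∀ i, x i ∈ maximalIdeal R)
    (hli : ∀ a : Fin d → K, ∑ i, algebraMap K R (a i) * x i ∈ maximalIdeal R ^ 2 → a = 0) :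
    RingHom.ker (evalMod (K := K) x 2).toRingHom ≤
      RingHom.ker (Ideal.Quotient.mkₐ K (idealOfVars (Fin d) K ^ 2)).toRingHom := by
  intro p hp
  have hp' : evalMod (K := K) x 2 p = 0 := hp
  rw [evalMod_eq_zero_iff] at hp'
  have := mem_sq_of_aeval_mem_sq x hx hli p hp'
  show Ideal.Quotient.mk _ p = 0
  exact Ideal.Quotient.eq_zero_iff_mem.mpr this

/-- The first-order chart `R → K[X] / J ^ 2`, inverse to the evaluation map. -/
noncomputable def firstOrder (hres : Function.Surjective (algebraMap K (ResidueField R)))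
    (hgen : maximalIdeal R = Ideal.span (Set.range x))
    (hli : ∀ a : Fin d → K, ∑ i, algebraMap K R (a i) * x i ∈ maximalIdeal R ^ 2 → a = 0) :
    R →ₐ[K] MvPolynomial (Fin d) K ⧸ idealOfVars (Fin d) K ^ 2 :=
  (AlgHom.liftOfSurjective (evalMod (K := K) x 2) (evalMod_surjective x hres hgen 2)
    (Ideal.Quotient.mkₐ K (idealOfVars (Fin d) K ^ 2))
    (ker_evalMod_two_le x (mem_maximalIdeal_of_span x hgen) hli)).comp
    (Ideal.Quotient.mkₐ K (maximalIdeal R ^ 2))

theorem firstOrder_aeval (hres : Function.Surjective (algebraMap K (ResidueField R)))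
    (hgen : maximalIdeal R = Ideal.span (Set.range x))
    (hli : ∀ a : Fin d → K, ∑ i, algebraMap K R (a i) * x i ∈ maximalIdeal R ^ 2 → a = 0)
    (p : MvPolynomial (Fin d) K) :
    firstOrder x hres hgen hli (aeval x p) = Ideal.Quotient.mk (idealOfVars (Fin d) K ^ 2) p := by
  have := AlgHom.liftOfSurjective_apply (evalMod (K := K) x 2) (evalMod_surjective x hres hgen 2)
    (Ideal.Quotient.mkₐ K (idealOfVars (Fin d) K ^ 2))
    (ker_evalMod_two_le x (mem_maximalIdeal_of_span x hgen) hli) p
  exact this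

end Lift

section Smooth

variable {K : Type u} [Field K] {d : ℕ}

/-- The transition map `K[X] / J ^ n → K[X] / J ^ 2`. -/
noncomputable def transTwo (K : Type u) [Field K] (d : ℕ) (n : ℕ) (hn : 2 ≤ n) :
    (MvPolynomial (Fin d) K ⧸ idealOfVars (Fin d) K ^ n) →ₐ[K]
      (MvPolynomial (Fin d) K ⧸ idealOfVars (Fin d) K ^ 2) :=
  Ideal.Quotient.factorₐ K (Ideal.pow_le_pow_right hn)

theorem transTwo_mk (n : ℕ) (hn : 2 ≤ n) (p : MvPolynomial (Fin d) K) :
    transTwo K d n hn (Ideal.Quotient.mk _ p) = Ideal.Quotient.mk _ p := rfl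

theorem transTwo_surjective (n : ℕ) (hn : 2 ≤ n) : Function.Surjective (transTwo K d n hn) :=
  Ideal.Quotient.factor_surjective (Ideal.pow_le_pow_right hn)

theorem ker_transTwo (n : ℕ) (hn : 2 ≤ n) :
    RingHom.ker (transTwo K d n hn : (MvPolynomial (Fin d) K ⧸ idealOfVars (Fin d) K ^ n) →+*
        (MvPolynomial (Fin d) K ⧸ idealOfVars (Fin d) K ^ 2)) =
      ((idealOfVars (Fin d) K).map (Ideal.Quotient.mk (idealOfVars (Fin d) K ^ n))) ^ 2 := by
  have h := Ideal.Quotient.factor_ker
    (Ideal.pow_le_pow_right hn : idealOfVars (Fin d) K ^ n ≤ idealOfVars (Fin d) K ^ 2)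
  rw [Ideal.map_pow] at h
  exact h

theorem map_mk_pow_eq_bot (n : ℕ) :
    ((idealOfVars (Fin d) K).map (Ideal.Quotient.mk (idealOfVars (Fin d) K ^ n))) ^ n = ⊥ := by
  rw [← Ideal.map_pow, Ideal.map_quotient_self]

theorem isNilpotent_ker_transTwo (n : ℕ) (hn : 2 ≤ n) :
    IsNilpotent (RingHom.ker
      (transTwo K d n hn : (MvPolynomial (Fin d) K ⧸ idealOfVars (Fin d) K ^ n) →+*
        (MvPolynomial (Fin d) K ⧸ idealOfVars (Fin d) K ^ 2))) := by
  refine ⟨n, ?_⟩
  rw [ker_transTwo, ← pow_mul, Ideal.zero_eq_bot, eq_bot_iff]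
  refine le_trans (Ideal.pow_le_pow_right (by omega : n ≤ 2 * n)) ?_
  rw [map_mk_pow_eq_bot]

variable {R : Type u} [CommRing R] [Algebra K R] [IsLocalRing R]
  [Algebra.FormallySmooth K R] (x : Fin d → R)

/-- The chart of order `n`, obtained from the first-order chart by formal smoothness. -/
noncomputable def higherOrder (hres : Function.Surjective (algebraMap K (ResidueField R)))
    (hgen : maximalIdeal R = Ideal.span (Set.range x))
    (hli : ∀ a : Fin d → K, ∑ i, algebraMap K R (a i) * x i ∈ maximalIdeal R ^ 2 → a = 0)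
    (n : ℕ) (hn : 2 ≤ n) :
    R →ₐ[K] MvPolynomial (Fin d) K ⧸ idealOfVars (Fin d) K ^ n :=
  Algebra.FormallySmooth.liftOfSurjective (firstOrder x hres hgen hli) (transTwo K d n hn)
    (transTwo_surjective n hn) (isNilpotent_ker_transTwo n hn)

theorem transTwo_higherOrder (hres : Function.Surjective (algebraMap K (ResidueField R)))
    (hgen : maximalIdeal R = Ideal.span (Set.range x))
    (hli : ∀ a : Fin d → K, ∑ i, algebraMap K R (a i) * x i ∈ maximalIdeal R ^ 2 → a = 0)
    (n : ℕ) (hn : 2 ≤ n) (r : R) :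
    transTwo K d n hn (higherOrder x hres hgen hli n hn r) = firstOrder x hres hgen hli r :=
  Algebra.FormallySmooth.liftOfSurjective_apply _ _ _ _ r

theorem higherOrder_sub_mem (hres : Function.Surjective (algebraMap K (ResidueField R)))
    (hgen : maximalIdeal R = Ideal.span (Set.range x))
    (hli : ∀ a : Fin d → K, ∑ i, algebraMap K R (a i) * x i ∈ maximalIdeal R ^ 2 → a = 0)
    (n : ℕ) (hn : 2 ≤ n) (i : Fin d) :
    ((higherOrder x hres hgen hli n hn).comp (aeval x)) (X i) -
        Ideal.Quotient.mk (idealOfVars (Fin d) K ^ n) (X i) ∈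
      ((idealOfVars (Fin d) K).map (Ideal.Quotient.mk (idealOfVars (Fin d) K ^ n))) ^ 2 := by
  rw [← ker_transTwo n hn, RingHom.mem_ker]
  show transTwo K d n hn _ = 0
  rw [map_sub, AlgHom.comp_apply, transTwo_higherOrder, firstOrder_aeval, transTwo_mk, sub_self]

theorem higherOrder_mem (hres : Function.Surjective (algebraMap K (ResidueField R)))
    (hgen : maximalIdeal R = Ideal.span (Set.range x))
    (hli : ∀ a : Fin d → K, ∑ i, algebraMap K R (a i) * x i ∈ maximalIdeal R ^ 2 → a = 0)
    (n : ℕ) (hn : 2 ≤ n) :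
    (maximalIdeal R).map (higherOrder x hres hgen hli n hn) ≤
      (idealOfVars (Fin d) K).map (Ideal.Quotient.mk (idealOfVars (Fin d) K ^ n)) := by
  conv_lhs => rw [hgen]
  rw [Ideal.map_span, Ideal.span_le]
  rintro _ ⟨_, ⟨i, rfl⟩, rfl⟩
  have h := perturb_map_mem n ((higherOrder x hres hgen hli n hn).comp (aeval x))
    (higherOrder_sub_mem x hres hgen hli n hn) (X i) (Ideal.subset_span ⟨i, rfl⟩)
  rw [AlgHom.comp_apply, aeval_X] at h
  exact h

theorem higherOrder_eq_zero (hres : Function.Surjective (algebraMap K (ResidueField R)))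
    (hgen : maximalIdeal R = Ideal.span (Set.range x))
    (hli : ∀ a : Fin d → K, ∑ i, algebraMap K R (a i) * x i ∈ maximalIdeal R ^ 2 → a = 0)
    (n : ℕ) (hn : 2 ≤ n) (r : R) (hr : r ∈ maximalIdeal R ^ n) :
    higherOrder x hres hgen hli n hn r = 0 := by
  have h1 : (maximalIdeal R ^ n).map (higherOrder x hres hgen hli n hn) ≤ ⊥ := by
    rw [Ideal.map_pow, ← map_mk_pow_eq_bot (K := K) (d := d) n]
    exact Ideal.pow_right_mono (higherOrder_mem x hres hgen hli n hn) n
  have := h1 (Ideal.mem_map_of_mem _ hr)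
  simpa using this

/-- The key injectivity statement: a polynomial whose value at the parameters lies in `𝔫 ^ n`
lies in `J ^ n`. -/
theorem mem_pow_of_aeval_mem_pow (hres : Function.Surjective (algebraMap K (ResidueField R)))
    (hgen : maximalIdeal R = Ideal.span (Set.range x))
    (hli : ∀ a : Fin d → K, ∑ i, algebraMap K R (a i) * x i ∈ maximalIdeal R ^ 2 → a = 0)
    (n : ℕ) (p : MvPolynomial (Fin d) K) (hp : aeval x p ∈ maximalIdeal R ^ n) :
    p ∈ idealOfVars (Fin d) K ^ n := by
  have hx := mem_maximalIdeal_of_span x hgen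
  rcases Nat.lt_or_ge n 2 with hn | hn
  · interval_cases n
    · exact mem_pow_zero _ _
    · exact mem_pow_one_of_mem _ (mem_idealOfVars_of_aeval_mem x hx p (mem_of_mem_pow_one _ hp))
  · refine ker_le_pow_of_sub_mem n ((higherOrder x hres hgen hli n hn).comp (aeval x))
      (higherOrder_sub_mem x hres hgen hli n hn) p ?_
    rw [AlgHom.comp_apply]
    exact higherOrder_eq_zero x hres hgen hli n hn _ hp

theorem ker_evalMod (hres : Function.Surjective (algebraMap K (ResidueField R)))
    (hgen : maximalIdeal R = Ideal.span (Set.range x))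
    (hli : ∀ a : Fin d → K, ∑ i, algebraMap K R (a i) * x i ∈ maximalIdeal R ^ 2 → a = 0)
    (n : ℕ) :
    RingHom.ker (evalMod (K := K) x n) = idealOfVars (Fin d) K ^ n := by
  ext p
  rw [RingHom.mem_ker, evalMod_eq_zero_iff]
  exact ⟨mem_pow_of_aeval_mem_pow x hres hgen hli n p,
    aeval_mem_pow x (mem_maximalIdeal_of_span x hgen) n p⟩

end Smooth

section Final

/-- **U1.** At a rational point of a formally smooth noetherian local `K`-algebra, the
infinitesimal neighbourhoods are those of the origin of affine space. -/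
theorem exists_bijective_quotient_pow (K : Type u) [Field K] (R : Type u) [CommRing R]
    [Algebra K R] [IsLocalRing R] [IsNoetherianRing R] [Algebra.FormallySmooth K R]
    (hres : Function.Surjective (algebraMap K (ResidueField R))) :
    ∃ (d : ℕ) (x : Fin d → R), maximalIdeal R = Ideal.span (Set.range x) ∧
      ∀ n : ℕ, Function.Surjective (evalMod (K := K) x n) ∧
        RingHom.ker (evalMod (K := K) x n) = idealOfVars (Fin d) K ^ n := by
  obtain ⟨d, x, hgen, hli⟩ := exists_cotangent_basis K R
  exact ⟨d, x, hgen, fun n => ⟨evalMod_surjective x hres hgen n, ker_evalMod x hres hgen hli n⟩⟩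

end Final

end Fermat.Agent.S26.H207
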