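import Mathlib

/-!
# Row S26, leaf UFD, step U3b: regular irreducible power series are prime (helper207)

Let `A` be a complete local domain which is a UFD.  If `g : A⟦X⟧` is irreducible and regular in
`X` (its reduction modulo the maximal ideal of `A` is nonzero), then `g` is prime.

Proof: Weierstrass preparation `g = f * h` with `f` a distinguished polynomial and `h` a unit;
`A⟦X⟧ / (g) ≃ A[X] / (f)`; `f` is irreducible in `A[X]`, hence prime (Gauss).
-/

set_option autoImplicit false

open IsLocalRing
open scoped Polynomial PowerSeries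

namespace Fermat.Agent.S26.H207

section Weierstrass

variable {A : Type*} [CommRing A] [IsDomain A] [IsLocalRing A]

/-- If a distinguished polynomial `f` factors as `p * q` in `A[X]` and `p` becomes a unit in
`A⟦X⟧`, then `p` is a unit in `A[X]`. -/
theorem isUnit_of_isUnit_coe_of_mul_eq {f p q : A[X]}
    (hf : f.IsDistinguishedAt (maximalIdeal A)) (hpq : p * q = f)
    (hp : IsUnit (p : A⟦X⟧)) : IsUnit p := by
  have hf0 : f ≠ 0 := hf.monic.ne_zero
  have hp0 : p ≠ 0 := by rintro rfl; exact hf0 (by rw [← hpq, zero_mul])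
  have hq0 : q ≠ 0 := by rintro rfl; exact hf0 (by rw [← hpq, mul_zero])
  obtain ⟨u, hu⟩ := hp
  -- `q = f * u⁻¹` as power series
  have hq : (q : A⟦X⟧) = (f : A⟦X⟧) * (↑u⁻¹ : A⟦X⟧) := by
    rw [← hpq, Polynomial.coe_mul, ← hu]
    rw [mul_comm (u : A⟦X⟧), mul_assoc, Units.mul_inv, mul_one]
  have hnot : PowerSeries.constantCoeff (↑u⁻¹ : A⟦X⟧) ∉ maximalIdeal A := by
    rw [mem_maximalIdeal, mem_nonunits_iff, not_not]
    exact PowerSeries.isUnit_iff_constantCoeff.mp (Units.isUnit _)
  have hord := hf.coe_natDegree_eq_order_map (q : A⟦X⟧) (↑u⁻¹ : A⟦X⟧) hnot hq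
  have hne := hf.map_ne_zero_of_eq_mul (q : A⟦X⟧) (↑u⁻¹ : A⟦X⟧) hnot hq
  -- the order of the reduction of `q` is at most `natDegree q`
  have hle : ((q : A⟦X⟧).map (Ideal.Quotient.mk (maximalIdeal A))).order ≤ q.natDegree := by
    obtain ⟨i, hi⟩ : ∃ i, PowerSeries.coeff i
        ((q : A⟦X⟧).map (Ideal.Quotient.mk (maximalIdeal A))) ≠ 0 := by
      by_contra hcon
      push Not at hcon
      exact hne (PowerSeries.ext fun i => by simpa using hcon i)
    have hiq : i ≤ q.natDegree := by
      by_contra hlt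
      push Not at hlt
      apply hi
      rw [PowerSeries.coeff_map, Polynomial.coeff_coe, Polynomial.coeff_eq_zero_of_natDegree_lt hlt,
        map_zero]
    exact (PowerSeries.order_le _ hi).trans (by exact_mod_cast hiq)
  have hfq : f.natDegree ≤ q.natDegree := by
    have : (f.natDegree : ℕ∞) ≤ q.natDegree := hord ▸ hle
    exact_mod_cast this
  have hdeg : f.natDegree = p.natDegree + q.natDegree := by
    rw [← hpq, Polynomial.natDegree_mul hp0 hq0]
  have hp_deg : p.natDegree = 0 := by omega
  have hlead : p.leadingCoeff * q.leadingCoeff = 1 := by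
    rw [← Polynomial.leadingCoeff_mul, hpq]
    exact hf.monic
  rw [Polynomial.eq_C_of_natDegree_eq_zero hp_deg]
  refine Polynomial.isUnit_C.mpr ?_
  have hlc : p.leadingCoeff = p.coeff 0 := by
    rw [Polynomial.leadingCoeff, hp_deg]
  rw [← hlc]
  exact IsUnit.of_mul_eq_one _ hlead

variable [IsAdicComplete (maximalIdeal A) A] [UniqueFactorizationMonoid A]

/-- **U3b.** Over a complete local UFD `A`, an irreducible power series in `A⟦X⟧` which is
regular in `X` (nonzero modulo the maximal ideal of `A`) is prime. -/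
theorem prime_of_irreducible_of_regular (g : A⟦X⟧) (hg : Irreducible g)
    (hreg : g.map (residue A) ≠ 0) : Prime g := by
  obtain ⟨f, h, H⟩ := PowerSeries.exists_isWeierstrassFactorization hreg
  have hfd := H.isDistinguishedAt
  have hgeq : g = (f : A⟦X⟧) * h := H.eq_mul
  have hg0 : g ≠ 0 := hg.ne_zero
  -- `f` is irreducible in `A[X]`
  have hfirr : Irreducible f := by
    refine ⟨?_, ?_⟩
    · intro hfu
      apply hg.not_isUnit
      rw [hgeq]
      exact (hfu.map (Polynomial.coeToPowerSeries.ringHom (R := A))).mul H.isUnit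
    · intro p q hpq
      have hgpq : g = (p : A⟦X⟧) * ((q : A⟦X⟧) * h) := by
        rw [hgeq, hpq, Polynomial.coe_mul, mul_assoc]
      rcases hg.isUnit_or_isUnit hgpq with hp | hqh
      · exact Or.inl (isUnit_of_isUnit_coe_of_mul_eq hfd hpq.symm hp)
      · right
        have hq : IsUnit (q : A⟦X⟧) := isUnit_of_mul_isUnit_left hqh
        exact isUnit_of_isUnit_coe_of_mul_eq hfd ((mul_comm q p).trans hpq.symm) hq
  have hfprime : Prime f := UniqueFactorizationMonoid.irreducible_iff_prime.mp hfirr
  have hIf : (Ideal.span {f}).IsPrime :=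
    (Ideal.span_singleton_prime hfprime.ne_zero).mpr hfprime
  have hdom : IsDomain (A[X] ⧸ Ideal.span {f}) := (Ideal.Quotient.isDomain_iff_prime _).mpr hIf
  have hdom' : IsDomain (A⟦X⟧ ⧸ Ideal.span {g}) :=
    H.algEquivQuotient.toRingEquiv.symm.toMulEquiv.isDomain _
  have hIg : (Ideal.span {g}).IsPrime := (Ideal.Quotient.isDomain_iff_prime _).mp hdom'
  exact (Ideal.span_singleton_prime hg0).mp hIg

end Weierstrass

end Fermat.Agent.S26.H207
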